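/-
P-SS2, row 1041 SS2-C1-DEG (helper64), part 1: an abstract tower lemma (Mathlib + the definition
`chartField` of helper22).

`α : E₁ →ₐ[K] E₂` fields, `x ∈ E₁`, `[E₁ : K(x)] = n > 0`, `[E₂ : K(α x)] = q n`.  Then any `q + 1`
elements of `E₂` are linearly dependent over `α E₁`.
-/
import Mathlib
import Fermat.Agent.H22.ES.KLSetting

set_option autoImplicit false
set_option linter.style.haveILetI false

noncomputable section

namespace Fermat.Agent.H64

open Fermat.Agent.H22.KL

variable {K E₁ E₂ : Type} [Field K] [Field E₁] [Field E₂] [Algebra K E₁] [Algebra K E₂]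

/-- `α` maps the chart field of `x` into the chart field of `α x`. -/
theorem ss2deg_map_mem (α : E₁ →ₐ[K] E₂) (x : E₁) {y : E₁} (hy : y ∈ chartField K E₁ x) :
    α y ∈ chartField K E₂ (α x) := by
  have hle : chartField K E₁ x ≤ (chartField K E₂ (α x)).comap α.toRingHom := by
    unfold chartField
    rw [Subfield.closure_le]
    intro z hz
    show α z ∈ Subfield.closure _
    apply Subfield.subset_closure
    have h1 : α z ∈ (chartRing K E₁ x).map α := ⟨z, hz, rfl⟩
    unfold chartRing at h1 ⊢
    rw [AlgHom.map_adjoin_singleton] at h1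
    exact h1
  exact hle hy

/-- Every element of the chart field of `α x` is the image of an element of the chart field of
`x`. -/
theorem ss2deg_exists_preimage (α : E₁ →ₐ[K] E₂) (x : E₁) {y : E₂}
    (hy : y ∈ chartField K E₂ (α x)) : ∃ z ∈ chartField K E₁ x, α z = y := by
  have hle : chartField K E₂ (α x) ≤ (chartField K E₁ x).map α.toRingHom := by
    unfold chartField
    rw [Subfield.closure_le]
    intro z hz
    have h1 : z ∈ (chartRing K E₁ x).map α := by
      unfold chartRing at hz ⊢
      rw [AlgHom.map_adjoin_singleton]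
      exact hz
    obtain ⟨w, hw, rfl⟩ := h1
    exact ⟨w, Subfield.subset_closure hw, rfl⟩
  obtain ⟨z, hz, rfl⟩ := hle hy
  exact ⟨z, hz, rfl⟩

/-- The ring isomorphism between the chart fields induced by `α`. -/
def ss2degEquiv (α : E₁ →ₐ[K] E₂) (x : E₁) :
    ↥(chartField K E₁ x) ≃+* ↥(chartField K E₂ (α x)) :=
  RingEquiv.ofBijective
    ((α.toRingHom.comp (chartField K E₁ x).subtype).codRestrict (chartField K E₂ (α x))
      (fun y => ss2deg_map_mem α x y.2))
    ⟨fun a b h => by
        have h1 : α (a : E₁) = α (b : E₁) := congrArg Subtype.val h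
        exact Subtype.ext (α.toRingHom.injective h1),
      fun y => by
        obtain ⟨z, hz, hzy⟩ := ss2deg_exists_preimage α x y.2
        exact ⟨⟨z, hz⟩, Subtype.ext hzy⟩⟩

theorem coe_ss2degEquiv (α : E₁ →ₐ[K] E₂) (x : E₁) (y : ↥(chartField K E₁ x)) :
    ((ss2degEquiv α x y : ↥(chartField K E₂ (α x))) : E₂) = α (y : E₁) := rfl

/-- **The abstract tower lemma.** -/
theorem ss2deg_abstract (α : E₁ →ₐ[K] E₂) (x : E₁) (n q : ℕ) (hn : 0 < n) (hq : 0 < q)
    (h1 : Module.finrank (chartField K E₁ x) E₁ = n)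
    (h2 : Module.finrank (chartField K E₂ (α x)) E₂ = q * n)
    (c : Fin (q + 1) → E₂) :
    ∃ a : Fin (q + 1) → E₁, a ≠ 0 ∧ ∑ i, α (a i) * c i = 0 := by
  letI : Algebra E₁ E₂ := α.toRingHom.toAlgebra
  letI : Algebra (chartField K E₁ x) E₂ :=
    (α.toRingHom.comp (chartField K E₁ x).subtype).toAlgebra
  haveI : IsScalarTower (chartField K E₁ x) E₁ E₂ :=
    IsScalarTower.of_algebraMap_eq (fun _ => rfl)
  have htower := Module.finrank_mul_finrank (chartField K E₁ x) E₁ E₂
  have h3 : Module.finrank (chartField K E₁ x) E₂ = Module.finrank (chartField K E₂ (α x)) E₂ :=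
    Algebra.finrank_eq_of_equiv_equiv (ss2degEquiv α x) (RingEquiv.refl E₂) (by
      ext y
      rfl)
  rw [h1, h3, h2, mul_comm] at htower
  have h4 : Module.finrank E₁ E₂ = q := Nat.eq_of_mul_eq_mul_right hn htower
  have hfin : Module.Finite E₁ E₂ := Module.finite_of_finrank_pos (by rw [h4]; exact hq)
  have hdep : ¬ LinearIndependent E₁ c := by
    intro hli
    have := hli.fintype_card_le_finrank
    rw [Fintype.card_fin, h4] at this
    omega
  rw [Fintype.not_linearIndependent_iff] at hdep
  obtain ⟨g, hg, i, hi⟩ := hdep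
  refine ⟨g, fun h0 => hi (by rw [h0]; rfl), ?_⟩
  rw [← hg]
  refine Finset.sum_congr rfl (fun j _ => ?_)
  rw [Algebra.smul_def]
  rfl

end Fermat.Agent.H64

end
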