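/-
P-SS2 (E1) DEG3, `α`-half at an ARBITRARY base field `K₁` (helper64, by-product of row 1041):
for a prime `q ∣ L` the degeneracy map `α : ModelField K₁ L → ModelField K₁ (L q)` is finite of
degree exactly `q`; for `q ∤ L` it is finite of degree `q + 1`.
(From helper57's `modelFinrank` and the tower law over `K₁(j)`.)
-/
import Fermat.Agent.H64.SS2.DegAbs
import Fermat.Agent.H57.SS.ModelFinrank
import Fermat.Agent.H57.Gamma0Index
import Fermat.Prelude.Def_ModularCurve_HeckeOperator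

set_option autoImplicit false
set_option linter.style.haveILetI false

noncomputable section

namespace Fermat.Agent.H64

open ModularCurve AlgebraicCurve Fermat.Agent.H22.KL Fermat.Agent.H27.KLGB

/-- **The abstract tower lemma, exact form.** -/
theorem ss2deg_finrank_abstract {K E₁ E₂ : Type} [Field K] [Field E₁] [Field E₂] [Algebra K E₁]
    [Algebra K E₂] (α : E₁ →ₐ[K] E₂) (x : E₁) (n d : ℕ) (hn : 0 < n) (hd : 0 < d)
    (h1 : Module.finrank (chartField K E₁ x) E₁ = n)
    (h2 : Module.finrank (chartField K E₂ (α x)) E₂ = d * n) :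
    FiniteAlong K α ∧ finrankAlong K α = d := by
  letI : Algebra E₁ E₂ := algebraAlong α
  letI : Algebra (chartField K E₁ x) E₂ :=
    (α.toRingHom.comp (chartField K E₁ x).subtype).toAlgebra
  haveI : IsScalarTower (chartField K E₁ x) E₁ E₂ :=
    IsScalarTower.of_algebraMap_eq (fun _ => rfl)
  have htower := Module.finrank_mul_finrank (chartField K E₁ x) E₁ E₂
  have h3 : Module.finrank (chartField K E₁ x) E₂ = Module.finrank (chartField K E₂ (α x)) E₂ :=
    Algebra.finrank_eq_of_equiv_equiv (ss2degEquiv α x) (RingEquiv.refl E₂) (by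
      ext y
      rfl)
  rw [h1, h3, h2, mul_comm] at htower
  have h4 : Module.finrank E₁ E₂ = d := Nat.eq_of_mul_eq_mul_right hn htower
  have hfin : Module.Finite E₁ E₂ := Module.finite_of_finrank_pos (by rw [h4]; exact hd)
  exact ⟨hfin, h4⟩

/-- `ψ(N) > 0` (copy). -/
theorem ss2deg_psi_pos (N : ℕ) (hN : N ≠ 0) : 0 < dedekindPsi N := by
  unfold dedekindPsi
  have h1 : 1 ∈ (N.divisors).filter (fun d => Squarefree d) := by
    simp [hN]
  refine lt_of_lt_of_le ?_ (Finset.single_le_sum (f := fun d => N / d)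
    (fun i _ => Nat.zero_le _) h1)
  simpa using Nat.pos_of_ne_zero hN

/-- The degree of `α : F_L → F_{L q}` over any base field `K₁`, general form. -/
theorem ss2deg_model_general (L q : ℕ) [NeZero L] [NeZero q] (d : ℕ) (hd : 0 < d)
    (hψ : dedekindPsi (L * q) = d * dedekindPsi L)
    (K₁ : Type) [Field K₁] [Algebra ℚ K₁] :
    FiniteAlong K₁ (heckeAlphaBar K₁ L q) ∧ finrankAlong K₁ (heckeAlphaBar K₁ L q) = d := by
  have hjmem : coeffEmb K₁ jq ∈ laurentBaseChange K₁ (modularFunctionFieldFull L) :=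
    coeffEmb_mem_laurentBaseChange K₁ (by
      have := jqModC_mem_full ℚ L
      exact this)
  have h1 := Fermat.Agent.H57.SS.modelFinrank L K₁ K₁
    (⟨coeffEmb K₁ jq, hjmem⟩ : ModelField K₁ L) rfl
  have h2 := Fermat.Agent.H57.SS.modelFinrank (L * q) K₁ K₁
    (heckeAlphaBar K₁ L q (⟨coeffEmb K₁ jq, hjmem⟩ : ModelField K₁ L)) rfl
  rw [hψ] at h2
  exact ss2deg_finrank_abstract (heckeAlphaBar K₁ L q) _ (dedekindPsi L) d
    (ss2deg_psi_pos _ (NeZero.ne L)) hd h1 h2

/-- **DEG3, `α`-half**: for a prime `q ∣ L`, `[F_{L q} : α F_L] = q` over ANY base field. -/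
theorem modelFinrankAlpha_of_dvd (L q : ℕ) [NeZero L] [NeZero q] (hq : q.Prime) (hqL : q ∣ L)
    (K₁ : Type) [Field K₁] [Algebra ℚ K₁] :
    FiniteAlong K₁ (heckeAlphaBar K₁ L q) ∧ finrankAlong K₁ (heckeAlphaBar K₁ L q) = q :=
  ss2deg_model_general L q q hq.pos
    (Fermat.Agent.H57.dedekindPsi_mul_prime_of_dvd (NeZero.ne L) hq hqL) K₁

/-- For a prime `q ∤ L`, `[F_{L q} : α F_L] = q + 1` over ANY base field. -/
theorem modelFinrankAlpha_of_not_dvd (L q : ℕ) [NeZero L] [NeZero q] (hq : q.Prime)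
    (hqL : ¬ q ∣ L) (K₁ : Type) [Field K₁] [Algebra ℚ K₁] :
    FiniteAlong K₁ (heckeAlphaBar K₁ L q) ∧ finrankAlong K₁ (heckeAlphaBar K₁ L q) = q + 1 :=
  ss2deg_model_general L q (q + 1) (Nat.succ_pos q)
    (Fermat.Agent.H57.dedekindPsi_mul_prime_of_not_dvd (NeZero.ne L) hq hqL) K₁

end Fermat.Agent.H64

end
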