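/-
P-SS2, row 1041 SS2-C1-DEG (helper64): `Fermat.Agent.H86.SS2.ModelDegreeStatement M' q`,
`[E₂ : α E₁] ≤ q` for `E₁ = ModelField K₁ (M' q)`, `E₂ = ModelField K₁ (M' q²)`,
from helper57's `modelFinrank` and the tower law over `K₁(j)`.
-/
import Fermat.Agent.H64.SS2.DegAbs
import Fermat.Agent.H86.SS2.Emb3Defs
import Fermat.Agent.H57.SS.ModelFinrank
import Fermat.Agent.H57.Gamma0Index

set_option autoImplicit false
set_option linter.style.haveILetI false

noncomputable section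

namespace Fermat.Agent.H64

open ModularCurve AlgebraicCurve Fermat.Agent.H22.KL Fermat.Agent.H27.KLGB

/-- `ψ(N) > 0`. -/
theorem ss2deg_dedekindPsi_pos (N : ℕ) (hN : N ≠ 0) : 0 < dedekindPsi N := by
  unfold dedekindPsi
  have h1 : 1 ∈ (N.divisors).filter (fun d => Squarefree d) := by
    simp [hN]
  refine lt_of_lt_of_le ?_ (Finset.single_le_sum (f := fun d => N / d)
    (fun i _ => Nat.zero_le _) h1)
  simpa using Nat.pos_of_ne_zero hN

/-- **[SS2-C1-DEG]** (row 1041). -/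
theorem modelDegree (M' q : ℕ) [NeZero M'] [NeZero q] :
    Fermat.Agent.H86.SS2.ModelDegreeStatement M' q := by
  intro hq _ K₁ _ _ c
  have hjmem : coeffEmb K₁ jq ∈ laurentBaseChange K₁ (modularFunctionFieldFull (M' * q)) :=
    coeffEmb_mem_laurentBaseChange K₁ (by
      have := jqModC_mem_full ℚ (M' * q)
      exact this)
  have h1 := Fermat.Agent.H57.SS.modelFinrank (M' * q) K₁ K₁
    (⟨coeffEmb K₁ jq, hjmem⟩ : ModelField K₁ (M' * q)) rfl
  have h2 := Fermat.Agent.H57.SS.modelFinrank (M' * q * q) K₁ K₁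
    (heckeAlphaBar K₁ (M' * q) q (⟨coeffEmb K₁ jq, hjmem⟩ : ModelField K₁ (M' * q))) rfl
  rw [Fermat.Agent.H57.dedekindPsi_mul_prime_of_dvd (NeZero.ne (M' * q)) hq
    (Dvd.intro_left M' rfl)] at h2
  have hpos : 0 < dedekindPsi (M' * q) := ss2deg_dedekindPsi_pos _ (NeZero.ne (M' * q))
  exact ss2deg_abstract (heckeAlphaBar K₁ (M' * q) q) _ (dedekindPsi (M' * q)) q hpos hq.pos h1 h2 c

end Fermat.Agent.H64

end
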